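import Mathlib

set_option autoImplicit false

namespace Fermat.Agent.Lib.QuadRep

/-- A quadratic relation `T² - a T + d = 0` passes to all powers of `T`, with constant term
`d ^ m`. -/
theorem quadratic_pow {k A : Type*} [CommRing k] [Ring A] [Algebra k A] (T : A) (a d : k)
    (h : T * T - a • T + d • (1 : A) = 0) (m : ℕ) :
    ∃ b : k, T ^ m * T ^ m - b • T ^ m + (d ^ m) • (1 : A) = 0 := by
  -- `T' = a - T` commutes with `T`, `T T' = d`
  set T' : A := a • (1 : A) - T with hT'
  have hcomm : Commute T T' := by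
    rw [hT']
    exact ((Commute.one_right T).smul_right a).sub_right (Commute.refl T)
  have hprod : T * T' = d • (1 : A) := by
    rw [hT', mul_sub, mul_smul_comm, mul_one]
    have : d • (1 : A) = a • T - T * T := by
      have h' := h
      rw [← sub_eq_zero]
      rw [← h']
      abel
    rw [this]
  have hsum : ∀ n : ℕ, ∃ b c : k, T ^ n + T' ^ n = b • (1 : A) ∧ T ^ (n + 1) + T' ^ (n + 1) = c • (1 : A) := by
    intro n
    induction n with
    | zero =>
      refine ⟨2, a, ?_, ?_⟩
      · simp [two_smul]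
      · simp [hT']
    | succ n ih =>
      obtain ⟨b, c, hb, hc⟩ := ih
      refine ⟨c, a * c - d * b, hc, ?_⟩
      have key : T ^ (n + 1 + 1) + T' ^ (n + 1 + 1) =
          (T + T') * (T ^ (n + 1) + T' ^ (n + 1)) - (T * T') * (T ^ n + T' ^ n) := by
        have h1 : T' * T ^ (n + 1) = T * T' * T ^ n := by
          rw [pow_succ', ← mul_assoc, hcomm.eq]
        have h2 : T * T' ^ (n + 1) = T * T' * T' ^ n := by
          rw [pow_succ', ← mul_assoc]
        rw [add_mul, mul_add, mul_add, mul_add, h1, h2, pow_succ' T (n + 1), pow_succ' T' (n + 1)]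
        abel
      have hs : T + T' = a • (1 : A) := by rw [hT']; abel
      rw [key, hs, hprod, hb, hc]
      simp only [smul_mul_assoc, one_mul, mul_smul_comm, mul_one, smul_smul, sub_smul]
      rw [mul_comm c a, mul_comm b d]
  obtain ⟨b, -, hb, -⟩ := hsum m
  refine ⟨b, ?_⟩
  have h1 : T ^ m * T' ^ m = (d ^ m) • (1 : A) := by
    rw [← hcomm.mul_pow, hprod, smul_pow, one_pow]
  have h2 : T' ^ m = b • (1 : A) - T ^ m := by rw [← hb]; abel
  rw [h2, mul_sub, mul_smul_comm, mul_one] at h1
  rw [← h1]
  abel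

end Fermat.Agent.Lib.QuadRep
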