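import Mathlib

set_option autoImplicit false

namespace Fermat.Agent.Lib.QuadRep

open Matrix

section Nakayama

variable {R L C ι : Type*} [CommRing R] [AddCommGroup L] [Module R L] [Module.Finite R L]
  [AddCommGroup C] [Module R C]

/-- Nakayama for a commuting family of operators having a common "eigenfunctional". -/
theorem eigen_sup_ne_top (S : ι → Module.End R L) (hS : ∀ i j, S i * S j = S j * S i)
    (lam : ι → R) (Λ : L →ₗ[R] C) (hΛS : ∀ i u, Λ (S i u) = lam i • Λ u)
    (hΛ : ∀ c : R, (∀ u, c • Λ u = 0) → c = 0)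
    (m : Ideal R) (hm : m ≠ ⊤) :
    m • (⊤ : Submodule R L) ⊔ ⨆ i, LinearMap.range (S i - lam i • (1 : Module.End R L)) ≠ ⊤ := by
  classical
  intro htop
  have hcomm : ∀ a ∈ Set.range S, ∀ b ∈ Set.range S, a * b = b * a := by
    rintro _ ⟨i, rfl⟩ _ ⟨j, rfl⟩
    exact hS i j
  letI : CommRing (Algebra.adjoin R (Set.range S)) := Algebra.adjoinCommRingOfComm R hcomm
  have hχ : ∀ t ∈ Algebra.adjoin R (Set.range S), ∃ c : R, ∀ u, Λ (t u) = c • Λ u := by
    intro t ht
    induction ht using Algebra.adjoin_induction with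
    | mem x hx =>
      obtain ⟨i, rfl⟩ := hx
      exact ⟨lam i, hΛS i⟩
    | algebraMap r => exact ⟨r, fun u => by simp [Module.algebraMap_end_apply]⟩
    | add x y _ _ hx hy =>
      obtain ⟨c, hc⟩ := hx
      obtain ⟨c', hc'⟩ := hy
      exact ⟨c + c', fun u => by simp [hc, hc', add_smul]⟩
    | mul x y _ _ hx hy =>
      obtain ⟨c, hc⟩ := hx
      obtain ⟨c', hc'⟩ := hy
      exact ⟨c * c', fun u => by simp [hc, hc', mul_smul]⟩
  let J : Ideal (Algebra.adjoin R (Set.range S)) :=
    { carrier := {t | ∃ c ∈ m, ∀ u, Λ ((t : Module.End R L) u) = c • Λ u}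
      add_mem' := by
        rintro a b ⟨c, hc, hc'⟩ ⟨e, he, he'⟩
        exact ⟨c + e, m.add_mem hc he, fun u => by simp [hc', he', add_smul]⟩
      zero_mem' := ⟨0, m.zero_mem, by simp⟩
      smul_mem' := by
        rintro a b ⟨c, hc, hc'⟩
        obtain ⟨e, he⟩ := hχ a.1 a.2
        exact ⟨e * c, m.mul_mem_left e hc, fun u => by simp [hc', he, mul_smul]⟩ }
  haveI : Module.Finite (Algebra.adjoin R (Set.range S)) L :=
    Module.Finite.of_restrictScalars_finite R _ L
  have hJtop : (⊤ : Submodule (Algebra.adjoin R (Set.range S)) L) ≤ J • ⊤ := by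
    have hle : m • (⊤ : Submodule R L) ⊔
        ⨆ i, LinearMap.range (S i - lam i • (1 : Module.End R L)) ≤
        (J • (⊤ : Submodule (Algebra.adjoin R (Set.range S)) L)).restrictScalars R := by
      refine sup_le ?_ (iSup_le ?_)
      · rw [Submodule.smul_le]
        intro c hc u _
        have h1 : (algebraMap R (Algebra.adjoin R (Set.range S)) c) ∈ J :=
          ⟨c, hc, fun u => by simp [Module.algebraMap_end_apply]⟩
        have h2 := Submodule.smul_mem_smul h1
          (Submodule.mem_top (x := u) (R := Algebra.adjoin R (Set.range S)))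
        rw [algebraMap_smul] at h2
        exact h2
      · rintro i _ ⟨u, rfl⟩
        have h1 : (⟨S i, Algebra.subset_adjoin ⟨i, rfl⟩⟩ -
            algebraMap R (Algebra.adjoin R (Set.range S)) (lam i)) ∈ J :=
          ⟨0, m.zero_mem, fun u => by simp [Module.algebraMap_end_apply, hΛS]⟩
        have h2 := Submodule.smul_mem_smul h1
          (Submodule.mem_top (x := u) (R := Algebra.adjoin R (Set.range S)))
        rw [sub_smul, algebraMap_smul] at h2
        have h3 : (S i - lam i • (1 : Module.End R L)) u =
            (⟨S i, Algebra.subset_adjoin ⟨i, rfl⟩⟩ : Algebra.adjoin R (Set.range S)) • u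
              - lam i • u := by
          simp only [LinearMap.sub_apply, LinearMap.smul_apply, Module.End.one_apply]
          rfl
        rw [h3]
        exact h2
    rw [htop] at hle
    intro u _
    exact hle (Submodule.mem_top (x := u))
  obtain ⟨f, hf1, hf0⟩ := Submodule.exists_sub_one_mem_and_smul_eq_zero_of_fg_of_le_smul J ⊤
    Module.Finite.fg_top hJtop
  obtain ⟨c, hc, hc'⟩ := hf1
  have h1 : c + 1 = 0 := by
    apply hΛ
    intro u
    have h2 := hc' u
    have h3 : (f : Module.End R L) u = 0 := hf0 u Submodule.mem_top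
    simp only [AddSubgroupClass.coe_sub, OneMemClass.coe_one, LinearMap.sub_apply, h3,
      Module.End.one_apply, zero_sub, map_neg] at h2
    rw [add_smul, one_smul, ← h2, neg_add_cancel]
  apply hm
  rw [Ideal.eq_top_iff_one]
  have : (1 : R) = -c := by linear_combination h1
  rw [this]
  exact m.neg_mem hc

end Nakayama

/-- **Reduction of eigensystems** (Deligne-Serre style, elementary form).  A system of eigenvalues
`lam i ∈ R` of a commuting family of matrices over `R`, realised by an eigenvector over a field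
`C ⊇ R`, is also realised after reduction along any surjection `φ : R → k` onto a field. -/
theorem exists_eigenvector_of_reduction {R C k ι n : Type*} [CommRing R] [Field C] [Algebra R C]
    (hinj : Function.Injective (algebraMap R C))
    [Field k] (φ : R →+* k) (hφ : Function.Surjective φ) [Fintype n] [DecidableEq n]
    (T : ι → Matrix n n R) (hT : ∀ i j, T i * T j = T j * T i) (lam : ι → R)
    (v : n → C) (hv : v ≠ 0)
    (hTv : ∀ i, (T i).map (algebraMap R C) *ᵥ v = algebraMap R C (lam i) • v) :
    ∃ x : n → k, x ≠ 0 ∧ ∀ i, (T i).map φ *ᵥ x = φ (lam i) • x := by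
  classical
  let S : ι → Module.End R (n → R) := fun i => Matrix.toLin' (T i)ᵀ
  have hS : ∀ i j, S i * S j = S j * S i := by
    intro i j
    change Matrix.toLin' (T i)ᵀ * Matrix.toLin' (T j)ᵀ = Matrix.toLin' (T j)ᵀ * Matrix.toLin' (T i)ᵀ
    rw [Module.End.mul_eq_comp, Module.End.mul_eq_comp, ← Matrix.toLin'_mul, ← Matrix.toLin'_mul,
      ← Matrix.transpose_mul, ← Matrix.transpose_mul, hT]
  let Λ : (n → R) →ₗ[R] C := Fintype.linearCombination R v
  have hΛ_apply : ∀ u, Λ u = ∑ j, u j • v j := fun u => Fintype.linearCombination_apply R v u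
  have hΛS : ∀ i u, Λ (S i u) = lam i • Λ u := by
    intro i u
    rw [hΛ_apply, hΛ_apply, Finset.smul_sum]
    have h1 : ∀ j, (S i u) j = ∑ l, T i l j * u l := by
      intro j
      simp [S, Matrix.toLin'_apply, Matrix.mulVec, dotProduct]
    simp only [h1, Finset.sum_smul]
    rw [Finset.sum_comm]
    refine Finset.sum_congr rfl fun l _ => ?_
    have h2 := congrFun (hTv i) l
    simp only [Matrix.mulVec, dotProduct, Matrix.map_apply, Pi.smul_apply, smul_eq_mul] at h2
    calc ∑ j, (T i l j * u l) • v j = u l • ∑ j, algebraMap R C (T i l j) * v j := by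
          rw [Finset.smul_sum]
          refine Finset.sum_congr rfl fun j _ => ?_
          simp only [Algebra.smul_def, map_mul]
          ring
      _ = lam i • u l • v l := by
          rw [h2]
          simp only [Algebra.smul_def]
          ring
  have hΛ : ∀ c : R, (∀ u, c • Λ u = 0) → c = 0 := by
    intro c hc
    obtain ⟨j, hj⟩ : ∃ j, v j ≠ 0 := by
      by_contra hcon
      push_neg at hcon
      exact hv (funext hcon)
    have h1 := hc (Pi.single j 1)
    rw [hΛ_apply, Finset.sum_eq_single j (by
      intro b _ hb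
      rw [Pi.single_eq_of_ne hb, zero_smul]) (by simp), Pi.single_eq_same, one_smul,
      Algebra.smul_def] at h1
    have h2 := (mul_eq_zero.1 h1).resolve_right hj
    exact hinj (by rw [h2, map_zero])
  have hN := eigen_sup_ne_top S hS lam Λ hΛS hΛ (RingHom.ker φ) (RingHom.ker_ne_top φ)
  set N := RingHom.ker φ • (⊤ : Submodule R (n → R)) ⊔
    ⨆ i, LinearMap.range (S i - lam i • (1 : Module.End R (n → R))) with hNdef
  let U : Submodule k (n → k) :=
    { carrier := {y | ∃ w ∈ N, (fun j => φ (w j)) = y}
      add_mem' := by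
        rintro _ _ ⟨w, hw, rfl⟩ ⟨w', hw', rfl⟩
        exact ⟨w + w', N.add_mem hw hw', by ext j; simp⟩
      zero_mem' := ⟨0, N.zero_mem, by ext j; simp⟩
      smul_mem' := by
        rintro c _ ⟨w, hw, rfl⟩
        obtain ⟨a, rfl⟩ := hφ c
        exact ⟨a • w, N.smul_mem a hw, by ext j; simp⟩ }
  have hker : ∀ w : n → R, (∀ j, φ (w j) = 0) → w ∈ N := by
    intro w hw
    apply Submodule.mem_sup_left
    have : w = ∑ j, w j • (Pi.single j 1 : n → R) := by
      ext l
      simp [Finset.sum_apply, Pi.single_apply]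
    rw [this]
    exact Submodule.sum_mem _ fun j _ =>
      Submodule.smul_mem_smul ((RingHom.mem_ker).2 (hw j)) Submodule.mem_top
  have hU : U < ⊤ := by
    rw [lt_top_iff_ne_top]
    intro htop
    apply hN
    rw [eq_top_iff]
    intro w _
    have hw : (fun j => φ (w j)) ∈ U := by rw [htop]; exact Submodule.mem_top
    obtain ⟨w', hw', he⟩ := hw
    have h1 : w - w' ∈ N := by
      apply hker
      intro j
      have := congrFun he j
      simp only [Pi.sub_apply, map_sub] 
      rw [this, sub_self]
    have : w = (w - w') + w' := by abel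
    rw [this]
    exact N.add_mem h1 hw'
  obtain ⟨f, hf0, hfU⟩ := Submodule.exists_le_ker_of_lt_top U hU
  have hf_apply : ∀ y : n → k, f y = ∑ j, y j * f (Pi.single j 1) := by
    intro y
    have : y = ∑ j, y j • (Pi.single j 1 : n → k) := by
      ext l
      simp [Finset.sum_apply, Pi.single_apply]
    conv_lhs => rw [this]
    simp [map_sum]
  refine ⟨fun j => f (Pi.single j 1), ?_, ?_⟩
  · intro h0
    apply hf0
    ext j
    simpa using congrFun h0 j
  · intro i
    ext j
    have hmem : (S i - lam i • (1 : Module.End R (n → R))) (Pi.single j 1) ∈ N :=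
      Submodule.mem_sup_right (Submodule.mem_iSup_of_mem i ⟨_, rfl⟩)
    have h1 : f (fun l => φ ((S i - lam i • (1 : Module.End R (n → R))) (Pi.single j 1) l)) = 0 :=
      hfU ⟨_, hmem, rfl⟩
    rw [hf_apply] at h1
    have h2 : ∀ l, φ ((S i - lam i • (1 : Module.End R (n → R))) (Pi.single j 1) l) =
        φ (T i j l) - φ (lam i) * (if l = j then 1 else 0) := by
      intro l
      simp [S, Matrix.toLin'_apply, Pi.single_apply]
      split_ifs <;> simp
    simp only [h2, sub_mul, Finset.sum_sub_distrib] at h1
    simp only [Matrix.mulVec, dotProduct, Matrix.map_apply, Pi.smul_apply, smul_eq_mul]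
    rw [sub_eq_zero] at h1
    rw [h1]
    simp [Finset.sum_ite_eq]

end Fermat.Agent.Lib.QuadRep
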