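import Fermat.Agent.Lib.QuadRep.CharPoly

set_option autoImplicit false

namespace Fermat.Agent.Lib.QuadRep

open Module Polynomial

theorem quad_inj {k : Type*} [CommRing k] {a b a' b' : k}
    (h : (X ^ 2 - C a * X + C b : k[X]) = X ^ 2 - C a' * X + C b') : a = a' ∧ b = b' := by
  have h1 := congrArg (fun P : k[X] => P.coeff 1) h
  have h0 := congrArg (fun P : k[X] => P.coeff 0) h
  simp [coeff_X_pow, coeff_X] at h1 h0
  exact ⟨h1, h0⟩

variable {k G W : Type*} [Field k] [Group G] [AddCommGroup W] [Module k W]

/-- In an irreducible representation over an algebraically closed field, an element `h` with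
`tr (g h) = tr g` for all `g` acts trivially. -/
theorem eq_one_of_trace_mul [IsAlgClosed k] [FiniteDimensional k W] [Nontrivial W]
    (ρ : G →* Module.End k W)
    (hirr : ∀ U : Submodule k W, (∀ g, ∀ x ∈ U, ρ g x ∈ U) → U = ⊥ ∨ U = ⊤) (h : G)
    (ht : ∀ g, LinearMap.trace k W (ρ (g * h)) = LinearMap.trace k W (ρ g)) : ρ h = 1 := by
  have htop := span_range_eq_top ρ hirr
  have key : ∀ x : Module.End k W, LinearMap.trace k W (x * ρ h) = LinearMap.trace k W (x * 1) := by
    intro x
    have hx : x ∈ Submodule.span k (Set.range ρ) := by rw [htop]; exact Submodule.mem_top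
    induction hx using Submodule.span_induction with
    | mem x hx =>
      obtain ⟨g, rfl⟩ := hx
      rw [← map_mul, ht, mul_one]
    | zero => simp
    | add x y _ _ hx hy => rw [add_mul, add_mul, map_add, map_add, hx, hy]
    | smul c x _ hx => rw [smul_mul_assoc, smul_mul_assoc, map_smul, map_smul, hx]
  let b := Module.finBasis k W
  apply (LinearMap.toMatrixAlgEquiv b).injective
  rw [Matrix.ext_iff_trace_mul_left]
  intro X
  obtain ⟨x, rfl⟩ := (LinearMap.toMatrixAlgEquiv b).surjective X
  rw [← map_mul, ← map_mul]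
  have := key x
  rw [LinearMap.trace_eq_matrix_trace k b, LinearMap.trace_eq_matrix_trace k b] at this
  exact this

/-- The analogous statement for a sum of two characters. -/
theorem eq_one_of_sum_mul (ψ χ : G →* k) (h : G)
    (hs : ∀ g, ψ (g * h) + χ (g * h) = ψ g + χ g) (hp : ψ h * χ h = 1) :
    ψ h = 1 ∧ χ h = 1 := by
  have hs' : ∀ g, (ψ h - 1) * ψ g + (χ h - 1) * χ g = 0 := by
    intro g
    have := hs g
    rw [map_mul, map_mul] at this
    linear_combination this
  by_cases hne : ∃ g0, ψ g0 ≠ χ g0
  · obtain ⟨g0, hg0⟩ := hne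
    have h1 := hs' g0
    have h2 := hs' 1
    rw [map_one, map_one, mul_one, mul_one] at h2
    have h3 : (ψ h - 1) * (ψ g0 - χ g0) = 0 := by linear_combination h1 - χ g0 * h2
    have h4 : ψ h - 1 = 0 := (mul_eq_zero.1 h3).resolve_right (sub_ne_zero.2 hg0)
    rw [h4, zero_add] at h2
    exact ⟨sub_eq_zero.1 h4, sub_eq_zero.1 h2⟩
  · push_neg at hne
    have h2 := hs' 1
    rw [map_one, map_one, mul_one, mul_one, ← hne h] at h2
    rw [← hne h] at hp ⊢
    have h5 : (ψ h - 1) * (ψ h + 1) = 0 := by linear_combination hp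
    have h6 : ψ h = 1 := by
      rcases mul_eq_zero.1 h5 with h' | h'
      · exact sub_eq_zero.1 h'
      · have h7 : ψ h = -1 := by linear_combination h'
        rw [h7] at h2
        have h8 : (2 : k) * 2 = 0 := by linear_combination -h2
        have h9 : (2 : k) = 0 := by
          rcases mul_eq_zero.1 h8 with h'' | h'' <;> exact h''
        rw [h7]
        linear_combination -h9
    exact ⟨h6, h6⟩

end Fermat.Agent.Lib.QuadRep
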