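import Fermat.Agent.Lib.QuadRep.CharPoly
import Fermat.Agent.Lib.QuadRep.Kernel

set_option autoImplicit false

namespace Fermat.Agent.Lib.QuadRep

open Module Polynomial

/-- Restriction of a representation to a stable subspace. -/
noncomputable def restrictRep {k G M : Type*} [Field k] [Group G] [AddCommGroup M] [Module k M]
    (ρ : G →* Module.End k M) (W : Submodule k M) (hW : ∀ g, ∀ x ∈ W, ρ g x ∈ W) :
    G →* Module.End k W where
  toFun g := (ρ g).restrict (hW g)
  map_one' := by
    ext x
    simp
  map_mul' g h := by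
    ext x
    simp

theorem restrictRep_apply {k G M : Type*} [Field k] [Group G] [AddCommGroup M] [Module k M]
    (ρ : G →* Module.End k M) (W : Submodule k M) (hW : ∀ g, ∀ x ∈ W, ρ g x ∈ W) (g : G) (x : W) :
    ((restrictRep ρ W hW g x : W) : M) = ρ g x := rfl

/-- The diagonal two dimensional representation attached to two characters. -/
noncomputable def diagRep {k G : Type*} [Field k] [Group G] (ψ χ : G →* k) :
    G →* Module.End k (Fin 2 → k) where
  toFun g := Matrix.toLin' (Matrix.diagonal ![ψ g, χ g])
  map_one' := by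
    have : (![ψ 1, χ 1] : Fin 2 → k) = 1 := by
      ext i; fin_cases i <;> simp
    rw [this]
    have h1 : Matrix.diagonal (1 : Fin 2 → k) = 1 := Matrix.diagonal_one
    rw [h1, Matrix.toLin'_one]
    rfl
  map_mul' g h := by
    have : (![ψ (g * h), χ (g * h)] : Fin 2 → k) = fun i => ![ψ g, χ g] i * ![ψ h, χ h] i := by
      ext i; fin_cases i <;> simp
    rw [this, ← Matrix.diagonal_mul_diagonal, Matrix.toLin'_mul]
    rfl

theorem diagRep_charpoly {k G : Type*} [Field k] [Group G] (ψ χ : G →* k) (g : G) :
    (diagRep ψ χ g).charpoly = X ^ 2 - C (ψ g + χ g) * X + C (ψ g * χ g) := by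
  change (Matrix.toLin' (Matrix.diagonal ![ψ g, χ g])).charpoly = _
  rw [Matrix.charpoly_toLin', Matrix.charpoly_fin_two]
  simp [Matrix.trace_fin_two, Matrix.det_fin_two]

theorem exists_two_dim {G : Type*} [Group G] {k : Type} [Field k] [IsAlgClosed k]
    {M : Type} [AddCommGroup M] [Module k M] [FiniteDimensional k M] [Nontrivial M]
    (ρ : G →* Module.End k M) (d : G →* k)
    (hq : ∀ g, ∃ a : k, ρ g * ρ g - a • ρ g + d g • (1 : Module.End k M) = 0) :
    ∃ (V : Type) (_ : AddCommGroup V) (_ : Module k V) (_ : Module.Finite k V)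
      (ρ' : G →* Module.End k V),
      Module.finrank k V = 2 ∧
      (∀ g, ρ g = 1 → d g = 1 → ρ' g = 1) ∧
      (∀ (g : G) (a : k), ρ g * ρ g - a • ρ g + d g • (1 : Module.End k M) = 0 →
        (ρ' g).charpoly = X ^ 2 - C a * X + C (d g)) ∧
      (∀ h : G, (∀ g, (ρ' (g * h)).charpoly = (ρ' g).charpoly) → ρ' h = 1) := by
  classical
  -- a minimal nonzero stable subspace
  let S : Set (Submodule k M) := {U | U ≠ ⊥ ∧ ∀ g, ∀ x ∈ U, ρ g x ∈ U}
  have hS : S.Nonempty := ⟨⊤, top_ne_bot, fun _ _ _ => Submodule.mem_top⟩
  obtain ⟨W, ⟨hW0, hW⟩, hmin⟩ := (wellFounded_lt (α := Submodule k M)).has_min S hS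
  let ρW := restrictRep ρ W hW
  have hirr : ∀ U : Submodule k W, (∀ g, ∀ x ∈ U, ρW g x ∈ U) → U = ⊥ ∨ U = ⊤ := by
    intro U hU
    by_cases hU0 : U = ⊥
    · exact Or.inl hU0
    right
    have hmem : U.map W.subtype ∈ S := by
      refine ⟨?_, ?_⟩
      · intro h
        apply hU0
        rw [eq_bot_iff]
        intro x hx
        have hx' : (x : M) ∈ U.map W.subtype := ⟨x, hx, rfl⟩
        rw [h, Submodule.mem_bot] at hx'
        rw [Submodule.mem_bot]
        exact Subtype.ext hx'
      · rintro g _ ⟨x, hx, rfl⟩
        exact ⟨ρW g x, hU g x hx, rfl⟩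
    have hle : U.map W.subtype ≤ W := by
      rintro _ ⟨x, _, rfl⟩
      exact x.2
    have heq : U.map W.subtype = W := by
      by_contra hne
      exact hmin _ hmem (lt_of_le_of_ne hle hne)
    rw [eq_top_iff]
    intro x _
    have hx : (x : M) ∈ U.map W.subtype := by rw [heq]; exact x.2
    obtain ⟨y, hy, hyx⟩ := hx
    have : y = x := Subtype.ext hyx
    rwa [← this]
  have hrel : ∀ (g : G) (a : k), ρ g * ρ g - a • ρ g + d g • (1 : Module.End k M) = 0 →
      ρW g * ρW g - a • ρW g + d g • (1 : Module.End k W) = 0 := by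
    intro g a h
    ext x
    have := congrArg (fun T : Module.End k M => T (x : M)) h
    simpa [ρW, restrictRep_apply] using this
  have hqW : ∀ g, ∃ a : k, ρW g * ρW g - a • ρW g + d g • (1 : Module.End k W) = 0 := by
    intro g
    obtain ⟨a, ha⟩ := hq g
    exact ⟨a, hrel g a ha⟩
  choose a ha using hqW
  have hle2 : finrank k W ≤ 2 := finrank_le_two_of_quadratic ρW hirr d a ha
  have hpos : 0 < finrank k W := by
    rw [Module.finrank_pos_iff_exists_ne_zero]
    obtain ⟨x, hx, hx0⟩ := Submodule.exists_mem_ne_zero_of_ne_bot hW0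
    exact ⟨⟨x, hx⟩, fun h => hx0 (congrArg Subtype.val h)⟩
  have hone : ∀ g, ρ g = 1 → ρW g = 1 := by
    intro g hg
    ext x
    simp [ρW, restrictRep_apply, hg]
  rcases (by omega : finrank k W = 2 ∨ finrank k W = 1) with h2 | h1
  · refine ⟨W, inferInstance, inferInstance, inferInstance, ρW, h2, fun g hg _ => hone g hg, ?_, ?_⟩
    · intro g a' hg
      exact charpoly_eq_of_quadratic h2 ρW hirr d (fun g => ⟨a g, ha g⟩) g a' (hrel g a' hg)
    · intro h hh
      haveI : Nontrivial W := Module.nontrivial_of_finrank_pos (R := k) hpos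
      apply eq_one_of_trace_mul ρW hirr h
      intro g
      have := hh g
      rw [charpoly_of_finrank_two h2, charpoly_of_finrank_two h2] at this
      exact (quad_inj this).1
  · -- one dimensional: a character
    obtain ⟨v, hv0, hv⟩ := finrank_eq_one_iff'.1 h1
    have hex : ∀ g, ∃ c : k, c • v = ρW g v := fun g => hv _
    choose ψ hψ using hex
    have hinj : ∀ c c' : k, c • v = c' • v → c = c' := by
      intro c c' h
      exact smul_left_injective k hv0 h
    let ψ' : G →* k :=
      { toFun := ψ
        map_one' := by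
          apply hinj
          rw [hψ, map_one, one_smul]
          rfl
        map_mul' := by
          intro g h
          apply hinj
          rw [hψ, map_mul, Module.End.mul_apply, ← hψ h, map_smul, ← hψ g, smul_smul, mul_comm] }
    have hψne : ∀ g, ψ g ≠ 0 := by
      intro g h0
      have h1 : ψ' (g * g⁻¹) = 1 := by rw [mul_inv_cancel, map_one]
      rw [map_mul] at h1
      change ψ g * _ = 1 at h1
      rw [h0, zero_mul] at h1
      exact zero_ne_one h1
    let χ : G →* k :=
      { toFun := fun g => d g * (ψ g)⁻¹
        map_one' := by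
          have : ψ 1 = 1 := ψ'.map_one
          rw [this, map_one, inv_one, mul_one]
        map_mul' := by
          intro g h
          have : ψ (g * h) = ψ g * ψ h := ψ'.map_mul g h
          rw [this, map_mul, mul_inv]
          ring }
    refine ⟨Fin 2 → k, inferInstance, inferInstance, inferInstance, diagRep ψ' χ, by simp, ?_, ?_, ?_⟩
    · intro g hg hd
      have h1 : ψ g = 1 := by
        apply hinj
        rw [hψ, hone g hg, one_smul]
        rfl
      have : (![ψ' g, χ g] : Fin 2 → k) = 1 := by
        ext i
        fin_cases i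
        · exact h1
        · change d g * (ψ g)⁻¹ = 1
          rw [h1, hd, inv_one, mul_one]
      change Matrix.toLin' (Matrix.diagonal ![ψ' g, χ g]) = 1
      rw [this]
      have h1 : Matrix.diagonal (1 : Fin 2 → k) = 1 := Matrix.diagonal_one
      rw [h1, Matrix.toLin'_one]
      rfl
    · intro g a' hg
      have h := congrArg (fun T : Module.End k W => T v) (hrel g a' hg)
      simp only [LinearMap.add_apply, LinearMap.sub_apply, Module.End.mul_apply,
        LinearMap.smul_apply, Module.End.one_apply, LinearMap.zero_apply] at h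
      rw [← hψ g, map_smul, ← hψ g, smul_smul, smul_smul, ← sub_smul, ← add_smul] at h
      have h0 : ψ g * ψ g - a' * ψ g + d g = 0 := by
        rcases smul_eq_zero.1 h with h | h
        · exact h
        · exact absurd h hv0
      rw [diagRep_charpoly]
      have e1 : ψ' g + χ g = a' := by
        change ψ g + d g * (ψ g)⁻¹ = a'
        field_simp [hψne g]
        linear_combination h0
      have e2 : ψ' g * χ g = d g := by
        change ψ g * (d g * (ψ g)⁻¹) = d g
        field_simp [hψne g]
      rw [e1, e2]
    · intro h hh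
      have hs : ∀ g, ψ' (g * h) + χ (g * h) = ψ' g + χ g := by
        intro g
        have := hh g
        rw [diagRep_charpoly, diagRep_charpoly] at this
        exact (quad_inj this).1
      have hp : ψ' h * χ h = 1 := by
        have := hh 1
        rw [diagRep_charpoly, diagRep_charpoly] at this
        have h2 := (quad_inj this).2
        rwa [one_mul, map_one, map_one, one_mul] at h2
      obtain ⟨h1, h2⟩ := eq_one_of_sum_mul ψ' χ h hs hp
      have : (![ψ' h, χ h] : Fin 2 → k) = 1 := by
        ext i
        fin_cases i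
        · exact h1
        · exact h2
      change Matrix.toLin' (Matrix.diagonal ![ψ' h, χ h]) = 1
      rw [this]
      have h1 : Matrix.diagonal (1 : Fin 2 → k) = 1 := Matrix.diagonal_one
      rw [h1, Matrix.toLin'_one]
      rfl

end Fermat.Agent.Lib.QuadRep
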