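import Fermat.Agent.Lib.QuadRep.DimLeTwo

set_option autoImplicit false

namespace Fermat.Agent.Lib.QuadRep

open Module Polynomial

variable {k G W : Type*} [Field k] [Group G] [AddCommGroup W] [Module k W]
  [FiniteDimensional k W]

theorem charpoly_of_finrank_two (h2 : finrank k W = 2) (T : Module.End k W) :
    T.charpoly = X ^ 2 - C (LinearMap.trace k W T) * X + C (LinearMap.det T) := by
  let b := Module.finBasisOfFinrankEq k W h2
  rw [← LinearMap.charpoly_toMatrix T b, Matrix.charpoly_fin_two,
    LinearMap.trace_eq_matrix_trace k b, LinearMap.det_toMatrix]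

theorem cayley_hamilton_two (h2 : finrank k W = 2) (T : Module.End k W) :
    T * T - (LinearMap.trace k W T) • T + (LinearMap.det T) • (1 : Module.End k W) = 0 := by
  have h := LinearMap.aeval_self_charpoly T
  rw [charpoly_of_finrank_two h2] at h
  simpa [pow_two, Algebra.smul_def] using h

theorem trace_det_or_scalar (h2 : finrank k W = 2) (T : Module.End k W) (a d : k)
    (h : T * T - a • T + d • (1 : Module.End k W) = 0) :
    (LinearMap.trace k W T = a ∧ LinearMap.det T = d) ∨ ∃ c : k, T = c • (1 : Module.End k W) := by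
  haveI : Nontrivial W := Module.nontrivial_of_finrank_pos (R := k) (by omega)
  have hch := cayley_hamilton_two h2 T
  have hsub : (LinearMap.trace k W T - a) • T = (LinearMap.det T - d) • (1 : Module.End k W) := by
    rw [sub_smul, sub_smul]
    have : (T * T - a • T + d • (1 : Module.End k W)) -
      (T * T - (LinearMap.trace k W T) • T + (LinearMap.det T) • (1 : Module.End k W)) = 0 := by
      rw [h, hch, sub_zero]
    rw [← sub_eq_zero, ← this]
    abel
  by_cases ht : LinearMap.trace k W T = a
  · left
    refine ⟨ht, ?_⟩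
    rw [ht, sub_self, zero_smul] at hsub
    have := (smul_eq_zero.1 hsub.symm).resolve_right one_ne_zero
    exact sub_eq_zero.1 this
  · right
    refine ⟨(LinearMap.trace k W T - a)⁻¹ * (LinearMap.det T - d), ?_⟩
    rw [mul_smul, ← hsub, smul_smul, inv_mul_cancel₀ (sub_ne_zero.2 ht), one_smul]

theorem charpoly_eq_of_quadratic (h2 : finrank k W = 2) (ρ : G →* Module.End k W)
    (hirr : ∀ U : Submodule k W, (∀ g, ∀ x ∈ U, ρ g x ∈ U) → U = ⊥ ∨ U = ⊤)
    (d : G →* k)
    (hq : ∀ g, ∃ a : k, ρ g * ρ g - a • ρ g + d g • (1 : Module.End k W) = 0)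
    (g : G) (a' : k) (hg : ρ g * ρ g - a' • ρ g + d g • (1 : Module.End k W) = 0) :
    (ρ g).charpoly = X ^ 2 - C a' * X + C (d g) := by
  haveI : Nontrivial W := Module.nontrivial_of_finrank_pos (R := k) (by omega)
  -- a non scalar element
  have hns : ∃ h, ¬ ∃ c : k, ρ h = c • (1 : Module.End k W) := by
    by_contra hcon
    push_neg at hcon
    obtain ⟨v, hv⟩ := exists_ne (0 : W)
    rcases hirr (Submodule.span k {v}) (by
      intro g x hx
      obtain ⟨c, hc⟩ := hcon g
      rw [hc]
      simpa using Submodule.smul_mem _ c hx) with h | h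
    · exact hv ((Submodule.span_singleton_eq_bot).1 h)
    · have h1 := finrank_span_singleton (K := k) hv
      rw [h, finrank_top, h2] at h1
      omega
  obtain ⟨h, hh⟩ := hns
  have hdne : ∀ g, d g ≠ 0 := by
    intro g h0
    have : d g * d g⁻¹ = 1 := by rw [← map_mul, mul_inv_cancel, map_one]
    rw [h0, zero_mul] at this
    exact zero_ne_one this
  have hdet_ns : ∀ g, (¬ ∃ c : k, ρ g = c • (1 : Module.End k W)) → LinearMap.det (ρ g) = d g := by
    intro g hgns
    obtain ⟨a, ha⟩ := hq g
    exact ((trace_det_or_scalar h2 _ a _ ha).resolve_right hgns).2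
  rw [charpoly_of_finrank_two h2]
  rcases trace_det_or_scalar h2 _ a' _ hg with ⟨h1, h3⟩ | ⟨c, hc⟩
  · rw [h1, h3]
  · have hc0 : c ≠ 0 := by
      rintro rfl
      rw [zero_smul] at hc
      have : ρ g * ρ g⁻¹ = 1 := by rw [← map_mul, mul_inv_cancel, map_one]
      rw [hc, zero_mul] at this
      exact zero_ne_one this
    have hgh : ρ (g * h) = c • ρ h := by rw [map_mul, hc, smul_mul_assoc, one_mul]
    have hghns : ¬ ∃ c' : k, ρ (g * h) = c' • (1 : Module.End k W) := by
      rintro ⟨c', hc'⟩
      apply hh
      refine ⟨c⁻¹ * c', ?_⟩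
      rw [mul_smul, ← hc', hgh, smul_smul, inv_mul_cancel₀ hc0, one_smul]
    have e1 := hdet_ns _ hghns
    rw [hgh, LinearMap.det_smul, h2, hdet_ns h hh, map_mul] at e1
    have hcc : c ^ 2 = d g := mul_right_cancel₀ (hdne h) e1
    have hdet : LinearMap.det (ρ g) = d g := by
      rw [hc, LinearMap.det_smul, h2, map_one, mul_one, hcc]
    have htr : LinearMap.trace k W (ρ g) = 2 * c := by
      rw [hc, map_smul, LinearMap.trace_one, h2, smul_eq_mul, mul_comm]
      norm_num
    have hrel : (c * c - a' * c + d g) • (1 : Module.End k W) = 0 := by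
      rw [← hg, hc]
      simp only [smul_mul_assoc, one_mul, mul_smul_comm, mul_one, smul_smul, add_smul, sub_smul]
    have hrel' : c * c - a' * c + d g = 0 := (smul_eq_zero.1 hrel).resolve_right one_ne_zero
    have ha' : a' = 2 * c := by
      have : (2 * c - a') * c = 0 := by
        rw [← hcc] at hrel'
        linear_combination hrel'
      rcases mul_eq_zero.1 this with h | h
      · exact (sub_eq_zero.1 h).symm
      · exact absurd h hc0
    rw [htr, hdet, ha']

end Fermat.Agent.Lib.QuadRep
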