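import Mathlib

set_option autoImplicit false

namespace Fermat.Agent.Lib.QuadRep

open Module

variable {k G W : Type*} [Field k] [Group G] [AddCommGroup W] [Module k W]

/-- Burnside's theorem: an irreducible finite dimensional representation over an algebraically
closed field spans the full endomorphism algebra. -/
theorem span_range_eq_top [IsAlgClosed k] [FiniteDimensional k W] [Nontrivial W]
    (ρ : G →* Module.End k W)
    (hirr : ∀ U : Submodule k W, (∀ g, ∀ x ∈ U, ρ g x ∈ U) → U = ⊥ ∨ U = ⊤) :
    Submodule.span k (Set.range ρ) = ⊤ := by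
  set A : Subalgebra k (Module.End k W) := Algebra.adjoin k (Set.range ρ) with hA
  have hAspan : Subalgebra.toSubmodule A = Submodule.span k (Set.range ρ) := by
    rw [hA, Algebra.adjoin_eq_span]
    congr 1
    have : (Set.range ρ) = ((MonoidHom.mrange ρ : Submonoid (Module.End k W)) : Set _) := by
      ext x; simp
    rw [this, Submonoid.closure_eq]
  have hsimple : IsSimpleModule A W := by
    rw [isSimpleModule_iff]
    refine { exists_pair_ne := ⟨⊥, ⊤, bot_ne_top⟩, eq_bot_or_eq_top := ?_ }
    intro N
    have h1 := hirr (N.restrictScalars k) (by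
      intro g x hx
      have hg : ρ g ∈ A := Algebra.subset_adjoin ⟨g, rfl⟩
      exact N.smul_mem (⟨ρ g, hg⟩ : A) hx)
    rcases h1 with h1 | h1
    · left
      exact (Submodule.restrictScalars_eq_bot_iff k A W).1 h1
    · right
      exact (Submodule.restrictScalars_eq_top_iff k A W).1 h1
  have hbij := IsSimpleModule.algebraMap_end_bijective_of_isAlgClosed (A := A) (V := W) k
  haveI : Module.Finite (End A W) W := Module.Finite.of_restrictScalars_finite k (End A W) W
  have hsurj := Module.Finite.toModuleEnd_moduleEnd_surjective (R := A) (M := W)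
  rw [← hAspan, eq_top_iff]
  intro f _
  -- `f` is linear over `End A W`
  let f' : End (End A W) W :=
    { toFun := f
      map_add' := f.map_add
      map_smul' := by
        intro φ w
        obtain ⟨c, rfl⟩ := hbij.2 φ
        simp [Module.algebraMap_end_apply] }
  obtain ⟨r, hr⟩ := hsurj f'
  have : (r : Module.End k W) = f := by
    ext w
    have := congrArg (fun g : End (End A W) W => g w) hr
    exact this
  rw [← this]
  exact r.2

/-- The key identity for group elements. -/
theorem anticomm_aux (ρ : G →* Module.End k W) (d : G →* k) (a : G → k)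
    (hq : ∀ g, ρ g * ρ g - a g • ρ g + d g • (1 : Module.End k W) = 0) (h g : G) :
    ρ h * ρ g + ρ g * ρ h =
      a g • ρ h + a h • ρ g + (a (h * g) - a g * a h) • (1 : Module.End k W) := by
  have hc : ∀ g, ρ g * (a g • (1 : Module.End k W) - ρ g) = d g • (1 : Module.End k W) := by
    intro g
    rw [mul_sub, mul_smul_comm, mul_one]
    calc a g • ρ g - ρ g * ρ g
        = d g • (1 : Module.End k W) - (ρ g * ρ g - a g • ρ g + d g • (1 : Module.End k W)) := by
          abel
      _ = d g • (1 : Module.End k W) := by rw [hq g, sub_zero]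
  have h1 : ρ (h * g) * (a (h * g) • (1 : Module.End k W) - ρ (h * g)) =
      ρ (h * g) * ((a g • (1 : Module.End k W) - ρ g) * (a h • (1 : Module.End k W) - ρ h)) := by
    rw [hc (h * g), map_mul ρ h g, mul_assoc, ← mul_assoc (ρ g), hc g, smul_mul_assoc, one_mul,
      mul_smul_comm, hc h, map_mul, smul_smul, mul_comm]
  have h2 : a (h * g) • (1 : Module.End k W) - ρ (h * g) =
      (a g • (1 : Module.End k W) - ρ g) * (a h • (1 : Module.End k W) - ρ h) := by
    have := congrArg (fun z => ρ (h * g)⁻¹ * z) h1
    rwa [← mul_assoc, ← mul_assoc, ← map_mul, inv_mul_cancel, map_one, one_mul, one_mul] at this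
  rw [map_mul] at h2
  have h3 : (a g • (1 : Module.End k W) - ρ g) * (a h • (1 : Module.End k W) - ρ h) =
      (a g * a h) • (1 : Module.End k W) - a g • ρ h - a h • ρ g + ρ g * ρ h := by
    simp only [sub_mul, mul_sub, smul_mul_assoc, one_mul, mul_smul_comm, mul_one, smul_smul,
      smul_sub]
    rw [mul_comm (a h) (a g)]
    abel
  rw [h3] at h2
  rw [sub_smul]
  have h4 : ρ h * ρ g = a (h * g) • (1 : Module.End k W) -
      ((a g * a h) • (1 : Module.End k W) - a g • ρ h - a h • ρ g + ρ g * ρ h) := by
    rw [← h2]; abel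
  rw [h4]
  abel

theorem anticomm_of_quadratic (ρ : G →* Module.End k W) (d : G →* k) (a : G → k)
    (hq : ∀ g, ρ g * ρ g - a g • ρ g + d g • (1 : Module.End k W) = 0) :
    ∀ x ∈ Submodule.span k (Set.range ρ), ∀ y ∈ Submodule.span k (Set.range ρ),
      ∃ s t c : k, x * y + y * x = t • x + s • y + c • (1 : Module.End k W) := by
  have hP : ∀ x ∈ Submodule.span k (Set.range ρ), ∃ s : k, ∀ g, ∃ c : k,
      x * ρ g + ρ g * x = a g • x + s • ρ g + c • (1 : Module.End k W) := by
    intro x hx
    induction hx using Submodule.span_induction with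
    | mem x hx =>
      obtain ⟨h, rfl⟩ := hx
      exact ⟨a h, fun g => ⟨_, anticomm_aux ρ d a hq h g⟩⟩
    | zero => exact ⟨0, fun g => ⟨0, by simp⟩⟩
    | add x y _ _ hx hy =>
      obtain ⟨s, hs⟩ := hx
      obtain ⟨s', hs'⟩ := hy
      refine ⟨s + s', fun g => ?_⟩
      obtain ⟨c, hc⟩ := hs g
      obtain ⟨c', hc'⟩ := hs' g
      refine ⟨c + c', ?_⟩
      rw [add_mul, mul_add, smul_add, add_smul, add_smul]
      have : x * ρ g + y * ρ g + (ρ g * x + ρ g * y) = (x * ρ g + ρ g * x) + (y * ρ g + ρ g * y) := by
        abel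
      rw [this, hc, hc']
      abel
    | smul r x _ hx =>
      obtain ⟨s, hs⟩ := hx
      refine ⟨r * s, fun g => ?_⟩
      obtain ⟨c, hc⟩ := hs g
      refine ⟨r * c, ?_⟩
      rw [smul_mul_assoc, mul_smul_comm, ← smul_add, hc]
      simp only [smul_add, smul_smul]
      rw [mul_comm r (a g)]
  intro x hx y hy
  obtain ⟨s, hs⟩ := hP x hx
  refine ⟨s, ?_⟩
  induction hy using Submodule.span_induction with
  | mem y hy =>
    obtain ⟨g, rfl⟩ := hy
    obtain ⟨c, hc⟩ := hs g
    exact ⟨a g, c, hc⟩
  | zero => exact ⟨0, 0, by simp⟩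
  | add y z _ _ hy hz =>
    obtain ⟨t, c, h1⟩ := hy
    obtain ⟨t', c', h2⟩ := hz
    refine ⟨t + t', c + c', ?_⟩
    rw [add_mul, mul_add, smul_add, add_smul, add_smul]
    have : x * y + x * z + (y * x + z * x) = (x * y + y * x) + (x * z + z * x) := by abel
    rw [this, h1, h2]
    abel
  | smul r y _ hy =>
    obtain ⟨t, c, h1⟩ := hy
    refine ⟨r * t, r * c, ?_⟩
    rw [smul_mul_assoc, mul_smul_comm, ← smul_add, h1]
    simp only [smul_add, smul_smul]
    rw [mul_comm r s]

/-- An irreducible representation in which every group element satisfies a quadratic relation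
whose constant term is a character has dimension at most two. -/
theorem finrank_le_two_of_quadratic [IsAlgClosed k] [FiniteDimensional k W]
    (ρ : G →* Module.End k W)
    (hirr : ∀ U : Submodule k W, (∀ g, ∀ x ∈ U, ρ g x ∈ U) → U = ⊥ ∨ U = ⊤)
    (d : G →* k) (a : G → k)
    (hq : ∀ g, ρ g * ρ g - a g • ρ g + d g • (1 : Module.End k W) = 0) :
    finrank k W ≤ 2 := by
  by_contra hcon
  push_neg at hcon
  haveI : Nontrivial W := Module.nontrivial_of_finrank_pos (R := k) (by omega)
  have htop := span_range_eq_top ρ hirr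
  let b := Module.finBasis k W
  let i0 : Fin (finrank k W) := ⟨0, by omega⟩
  let i1 : Fin (finrank k W) := ⟨1, by omega⟩
  let i2 : Fin (finrank k W) := ⟨2, by omega⟩
  have h01 : i0 ≠ i1 := by simp [i0, i1, Fin.ext_iff]
  have h02 : i0 ≠ i2 := by simp [i0, i2, Fin.ext_iff]
  have h12 : i1 ≠ i2 := by simp [i1, i2, Fin.ext_iff]
  let x : Module.End k W := b.constr k (fun i => if i = i1 then b i0 else 0)
  let y : Module.End k W := b.constr k (fun i => if i = i0 then b i1 else 0)
  have hx : ∀ i, x (b i) = if i = i1 then b i0 else 0 := fun i => by simp [x, Basis.constr_basis]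
  have hy : ∀ i, y (b i) = if i = i0 then b i1 else 0 := fun i => by simp [y, Basis.constr_basis]
  obtain ⟨s, t, c, h⟩ := anticomm_of_quadratic ρ d a hq x (htop ▸ Submodule.mem_top) y
    (htop ▸ Submodule.mem_top)
  have e2 := congrArg (fun f : Module.End k W => f (b i2)) h
  simp only [LinearMap.add_apply, Module.End.mul_apply, LinearMap.smul_apply, hx, hy,
    Module.End.one_apply, if_neg h12.symm, if_neg h02.symm, map_zero, smul_zero, add_zero,
    zero_add] at e2
  have hc : c = 0 := by
    by_contra hc
    exact b.ne_zero i2 ((smul_eq_zero.1 e2.symm).resolve_left hc)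
  have e0 := congrArg (fun f : Module.End k W => f (b i0)) h
  simp only [LinearMap.add_apply, Module.End.mul_apply, LinearMap.smul_apply, hx, hy,
    Module.End.one_apply, if_neg h01, if_true, map_zero, smul_zero, add_zero,
    zero_add, hc, zero_smul] at e0
  -- `b i0 = s • b i1`
  have := congrArg (fun w => b.repr w i0) e0
  simp [Finsupp.single_apply, h01.symm] at this

end Fermat.Agent.Lib.QuadRep
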